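import Mathlib

/-!
# S52: shared definitions (Klein icosahedral forms and the 5-congruent family)

`kf` (degree 12), `kH` (degree 20), `kT` (degree 30) are the Klein forms, with
`kH^3 - kT^2 = -1728 * kf^5`.  The curve attached to `(u,v)` is `y^2 = x^3 - 27 kH x + 54 kT`
(so `c4 = kH`, `c6 = -kT`).  The covariant line is `(u,v) ↦ (u + t * kfv, v - t * kfu)`.
`famA, famB, famD` express `kH, kT, kf` along this line through `H = kH u v`, `T = kT u v`.
-/

namespace Fermat.Agent.S52

variable {R : Type*} [CommRing R]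

/-- Klein form of degree 12. -/
def kf (u v : R) : R := u * v * (u^10 + 11 * u^5 * v^5 - v^10)

/-- partial derivative of `kf` in `u`. -/
def kfu (u v : R) : R := v * (11 * u^10 + 66 * u^5 * v^5 - v^10)

/-- partial derivative of `kf` in `v`. -/
def kfv (u v : R) : R := u * (u^10 + 66 * u^5 * v^5 - 11 * v^10)

/-- Klein form of degree 20 (sign chosen so that `c4 = kH`). -/
def kH (u v : R) : R := u^20 - 228 * u^15 * v^5 + 494 * u^10 * v^10 + 228 * u^5 * v^15 + v^20

/-- Klein form of degree 30 (`c6 = - kT`). -/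
def kT (u v : R) : R :=
  u^30 + v^30 + 522 * (u^25 * v^5 - u^5 * v^25) - 10005 * (u^20 * v^10 + u^10 * v^20)

/-- first coordinate of the covariant line. -/
def lineU (u v t : R) : R := u + t * kfv u v

/-- second coordinate of the covariant line. -/
def lineV (u v t : R) : R := v - t * kfu u v

/-- coefficient of `t^k` in `famA`. -/
def famAc (H T : R) : ℕ → R
  | 0 => H
  | 1 => 20 * T
  | 2 => 190 * H^2
  | 3 => 1140 * H * T
  | 4 => -855 * H^3 + 5700 * T^2
  | 5 => 15504 * H^2 * T
  | 6 => 102600 * H^4 - 63840 * H * T^2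
  | 7 => 259920 * H^3 * T - 182400 * T^3
  | 8 => -1000350 * H^5 + 1126320 * H^2 * T^2
  | 9 => -7736040 * H^4 * T + 7904000 * H * T^3
  | 10 => -10003500 * H^6 - 5619744 * H^3 * T^2 + 15808000 * T^4
  | 11 => -54685800 * H^5 * T + 54853760 * H^2 * T^3
  | 12 => -45015750 * H^7 + 7202520 * H^4 * T^2 + 37939200 * H * T^4
  | 13 => -35089200 * H^6 * T - 23201280 * H^3 * T^3 + 58368000 * T^5
  | 14 => 207765000 * H^8 - 495188640 * H^5 * T^2 + 287462400 * H^2 * T^4
  | 15 => 415530000 * H^7 * T - 882458496 * H^4 * T^3 + 466944000 * H * T^5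
  | 16 => -77911875 * H^9 + 714711600 * H^6 * T^2 - 1220474880 * H^3 * T^4 + 583680000 * T^6
  | 17 => 353200500 * H^8 * T - 715080960 * H^5 * T^3 + 361881600 * H^2 * T^5
  | 18 => 779118750 * H^10 - 2182917600 * H^7 * T^2 + 2026391040 * H^4 * T^4 - 622592000 * H * T^6
  | 19 => 694372500 * H^9 * T - 2044414080 * H^6 * T^3 + 2005401600 * H^3 * T^5 - 655360000 * T^7
  | 20 => 184528125 * H^11 - 549301500 * H^8 * T^2 + 544997376 * H^5 * T^4 - 180224000 * H^2 * T^6
  | _ => 0

/-- coefficient of `t^k` in `famB`. -/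
def famBc (H T : R) : ℕ → R
  | 0 => T
  | 1 => 30 * H^2
  | 2 => 435 * H * T
  | 3 => 1160 * H^3 + 2900 * T^2
  | 4 => 27405 * H^2 * T
  | 5 => 95526 * H^4 + 46980 * H * T^2
  | 6 => 437175 * H^3 * T + 156600 * T^3
  | 7 => -1879200 * H^5 + 3915000 * H^2 * T^2
  | 8 => -8554275 * H^4 * T + 14407200 * H * T^3
  | 9 => 24312150 * H^6 - 42021000 * H^3 * T^2 + 32016000 * T^4
  | 10 => 246633255 * H^5 * T - 216588240 * H^2 * T^3
  | 11 => 162081000 * H^7 + 1352475900 * H^4 * T^2 - 1459929600 * H * T^4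
  | 12 => 4131714825 * H^6 * T - 1612005600 * H^3 * T^3 - 2433216000 * T^5
  | 13 => 6928962750 * H^8 + 5235216300 * H^5 * T^2 - 12044419200 * H^2 * T^4
  | 14 => 43190534475 * H^7 * T - 43045111800 * H^4 * T^3
  | 15 => 79575287760 * H^6 * T^2 - 79420170240 * H^3 * T^4
  | 16 => -176688550125 * H^8 * T + 474659611200 * H^5 * T^3 - 297825638400 * H^2 * T^5
  | 17 => -311803323750 * H^10 + 77604382800 * H^7 * T^2 + 935084908800 * H^4 * T^4 - 700766208000 * H * T^6
  | 18 => -1694131392375 * H^9 * T + 2776512362400 * H^6 * T^3 - 303665356800 * H^3 * T^5 - 778629120000 * T^7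
  | 19 => -328214025000 * H^11 - 3481840250100 * H^8 * T^2 + 8100765158400 * H^5 * T^4 - 4290656256000 * H^2 * T^6
  | 20 => -2874607835625 * H^10 * T + 2424887357760 * H^7 * T^3 + 3892110842880 * H^4 * T^5 - 3442360320000 * H * T^7
  | 21 => -2215444668750 * H^12 + 3077188825500 * H^9 * T^2 - 2709129888000 * H^6 * T^4 + 5125838438400 * H^3 * T^6 - 3278438400000 * T^8
  | 22 => -1403114956875 * H^11 * T - 1724509423800 * H^8 * T^3 + 7701051801600 * H^5 * T^5 - 4573421568000 * H^2 * T^7
  | 23 => 7705894500000 * H^13 - 33414470973000 * H^10 * T^2 + 49888700928000 * H^7 * T^4 - 30337884979200 * H^4 * T^6 + 6157762560000 * H * T^8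
  | 24 => 5089101159375 * H^12 * T - 22687218914400 * H^9 * T^3 + 35246094796800 * H^6 * T^5 - 22779445248000 * H^3 * T^7 + 5131468800000 * T^9
  | 25 => -17627233668750 * H^14 + 70097953635000 * H^11 * T^2 - 105528606261120 * H^8 * T^4 + 71274600677376 * H^5 * T^6 - 18216714240000 * H^2 * T^8
  | 26 => -40985726371875 * H^13 * T + 163672057566000 * H^10 * T^3 - 245438120632320 * H^7 * T^5 + 163803539865600 * H^4 * T^7 - 41051750400000 * H * T^9
  | 27 => -9632368125000 * H^15 + 8104032382500 * H^12 * T^2 + 63806176396800 * H^9 * T^4 - 143803576074240 * H^6 * T^6 + 111934439424000 * H^3 * T^8 - 30408704000000 * T^10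
  | 28 => -21432019078125 * H^14 * T + 85719228804000 * H^11 * T^3 - 128580522647040 * H^8 * T^5 + 85731449241600 * H^5 * T^7 - 21438136320000 * H^2 * T^9
  | 29 => -11210083593750 * H^16 + 49873523512500 * H^13 * T^2 - 87394892457600 * H^10 * T^4 + 75042714746880 * H^7 * T^6 - 31344427008000 * H^4 * T^8 + 5033164800000 * H * T^10
  | 30 => -4110363984375 * H^15 * T + 19796866155000 * H^12 * T^3 - 38083944628224 * H^9 * T^5 + 36574189977600 * H^6 * T^7 - 17532190720000 * H^3 * T^9 + 3355443200000 * T^11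
  | _ => 0

/-- coefficient of `t^k` in `famD`. -/
def famDc (H T : R) : ℕ → R
  | 0 => 1
  | 1 => 0
  | 2 => -66 * H
  | 3 => -440 * T
  | 4 => -1485 * H^2
  | 5 => -3168 * H * T
  | 6 => 5940 * H^3 - 10560 * T^2
  | 7 => -4752 * H^2 * T
  | 8 => -66825 * H^4 + 63360 * H * T^2
  | 9 => -142560 * H^3 * T + 140800 * T^3
  | 10 => -133650 * H^5 + 133056 * H^2 * T^2
  | 11 => -61560 * H^4 * T + 61440 * H * T^3
  | 12 => 91125 * H^6 - 193536 * H^3 * T^2 + 102400 * T^4
  | _ => 0

/-- `kH` along the line, as a polynomial in `H = kH u v`, `T = kT u v`, `t`. -/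
def famA (H T t : R) : R := ∑ k ∈ Finset.range 21, famAc H T k * t ^ k

/-- `famA H T t = H + t * famA1 H T t`. -/
def famA1 (H T t : R) : R := ∑ k ∈ Finset.range 20, famAc H T (k + 1) * t ^ k

/-- `kT` along the line. -/
def famB (H T t : R) : R := ∑ k ∈ Finset.range 31, famBc H T k * t ^ k

/-- `famB H T t = T + t * famB1 H T t`. -/
def famB1 (H T t : R) : R := ∑ k ∈ Finset.range 30, famBc H T (k + 1) * t ^ k

/-- `kf` along the line is `kf u v * famD`. -/
def famD (H T t : R) : R := ∑ k ∈ Finset.range 13, famDc H T k * t ^ k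

theorem famA_eq (H T t : R) : famA H T t = H + t * famA1 H T t := by
  unfold famA famA1
  rw [Finset.sum_range_succ', Finset.mul_sum]
  simp only [famAc, pow_zero, mul_one]
  rw [add_comm]
  congr 1
  exact Finset.sum_congr rfl fun k _ => by ring

theorem famB_eq (H T t : R) : famB H T t = T + t * famB1 H T t := by
  unfold famB famB1
  rw [Finset.sum_range_succ', Finset.mul_sum]
  simp only [famBc, pow_zero, mul_one]
  rw [add_comm]
  congr 1
  exact Finset.sum_congr rfl fun k _ => by ring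

/-- (This lemma also realises the equation lemmas of `famDc` in the defining module, so that
downstream modules share them.) -/
theorem famDc_zero (H T : R) : famDc H T 0 = 1 := by
  simp only [famDc]

/-- Klein's relation. -/
theorem klein_relation (u v : R) : kH u v ^ 3 - kT u v ^ 2 = -1728 * kf u v ^ 5 := by
  unfold kH kT kf; ring

/-- Euler's relation for `kf`. -/
theorem euler_kf (u v : R) : u * kfu u v + v * kfv u v = 12 * kf u v := by
  unfold kfu kfv kf; ring

end Fermat.Agent.S52
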