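import Fermat.Prelude.Def_FLTPrelim_Modularity
import Fermat.Agent.S52.Defs

/-!
# S52: definitions used in the interfaces between the nodes A, B, C, D
-/

set_option autoImplicit false
open WeierstrassCurve WeierstrassCurve.Affine WeierstrassCurve.Affine.Point

namespace Fermat.Agent.S52

/-- short Weierstrass curve with given `c4`, `c6`: `y^2 = x^3 - 27 c4 x - 54 c6`. -/
def shortW {R : Type*} [CommRing R] (c4 c6 : R) : WeierstrassCurve R :=
  ⟨0, 0, 0, -27 * c4, -54 * c6⟩

/-- the `ℓ`-power Frobenius on the points of a curve defined over `ZMod ℓ`. -/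
noncomputable def frobPt {ℓ : ℕ} [Fact ℓ.Prime] (V : WeierstrassCurve (ZMod ℓ))
    (K : Type*) [Field K] [Algebra (ZMod ℓ) K] [DecidableEq K] :
    (V.toAffine⁄K).Point →+ (V.toAffine⁄K).Point :=
  Point.map (W' := V.toAffine) (FiniteField.frobeniusAlgHom (ZMod ℓ) K)

/-- the auxiliary integer `m = 30 Δ² n`. -/
def parM (W : WeierstrassCurve ℤ) (n : ℤ) : ℤ := 30 * W.Δ ^ 2 * n

/-- the parameter `s = 1728 m` on the covariant line. -/
def parS (W : WeierstrassCurve ℤ) (n : ℤ) : ℤ := 1728 * parM W n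

/-- `c₄` of the new curve. -/
def newC4 (W : WeierstrassCurve ℤ) (n : ℤ) : ℤ := famA W.c₄ (-W.c₆) (parS W n)

/-- `c₆` of the new curve. -/
def newC6 (W : WeierstrassCurve ℤ) (n : ℤ) : ℤ := -famB W.c₄ (-W.c₆) (parS W n)

/-- change of `a₄`. -/
def d4 (W : WeierstrassCurve ℤ) (n : ℤ) : ℤ := -36 * parM W n * famA1 W.c₄ (-W.c₆) (parS W n)

/-- change of `a₆`. -/
def d6 (W : WeierstrassCurve ℤ) (n : ℤ) : ℤ :=
  -3 * parM W n * W.b₂ * famA1 W.c₄ (-W.c₆) (parS W n)
    + 2 * parM W n * famB1 W.c₄ (-W.c₆) (parS W n)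

/-- the member of the 5-congruent family, as an integral model close to `W`. -/
def newCurve (W : WeierstrassCurve ℤ) (n : ℤ) : WeierstrassCurve ℤ :=
  ⟨W.a₁, W.a₂, W.a₃, W.a₄ + d4 W n, W.a₆ + d6 W n⟩

/-- the quartic whose roots are `12 x + b₂`, `x` a root of the 3-division polynomial. -/
def quartic {R : Type*} [CommRing R] (c4 c6 Z : R) : R :=
  Z ^ 4 - 6 * c4 * Z ^ 2 - 8 * c6 * Z - 3 * c4 ^ 2

section maps

variable {R S : Type*} [CommRing R] [CommRing S] (f : R →+* S)

theorem map_famAc (H T : R) (k : ℕ) : f (famAc H T k) = famAc (f H) (f T) k := by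
  unfold famAc
  split <;> simp only [map_add, map_sub, map_mul, map_pow, map_neg, map_ofNat, _root_.map_zero, map_one]

theorem map_famBc (H T : R) (k : ℕ) : f (famBc H T k) = famBc (f H) (f T) k := by
  unfold famBc
  split <;> simp only [map_add, map_sub, map_mul, map_pow, map_neg, map_ofNat, _root_.map_zero, map_one]

theorem map_famDc (H T : R) (k : ℕ) : f (famDc H T k) = famDc (f H) (f T) k := by
  unfold famDc
  split <;> simp only [map_add, map_sub, map_mul, map_pow, map_neg, map_ofNat, _root_.map_zero, map_one]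

theorem map_famA (H T t : R) : f (famA H T t) = famA (f H) (f T) (f t) := by
  simp only [famA, map_sum, map_mul, map_pow, map_famAc]

theorem map_famB (H T t : R) : f (famB H T t) = famB (f H) (f T) (f t) := by
  simp only [famB, map_sum, map_mul, map_pow, map_famBc]

theorem map_famD (H T t : R) : f (famD H T t) = famD (f H) (f T) (f t) := by
  simp only [famD, map_sum, map_mul, map_pow, map_famDc]

end maps

end Fermat.Agent.S52
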