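import Fermat.Agent.S52.Interface
import Fermat.Agent.Lib.FrobCH.Main

/-!
# S52, node A: Cayley-Hamilton for Frobenius from the point count
(a restatement of `Fermat.Agent.Lib.FrobCH.CH` in the language of the S52 interface)
-/

set_option autoImplicit false
open WeierstrassCurve WeierstrassCurve.Affine WeierstrassCurve.Affine.Point

namespace Fermat.Agent.S52

theorem two_ne_zero_zmod (ℓ : ℕ) [Fact ℓ.Prime] (hℓ : 5 ≤ ℓ) : (2 : ZMod ℓ) ≠ 0 := by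
  intro h
  have h' : ((2 : ℕ) : ZMod ℓ) = 0 := by exact_mod_cast h
  have := Nat.le_of_dvd (by norm_num) ((ZMod.natCast_eq_zero_iff 2 ℓ).mp h')
  omega

theorem three_ne_zero_zmod (ℓ : ℕ) [Fact ℓ.Prime] (hℓ : 5 ≤ ℓ) : (3 : ZMod ℓ) ≠ 0 := by
  intro h
  have h' : ((3 : ℕ) : ZMod ℓ) = 0 := by exact_mod_cast h
  have := Nat.le_of_dvd (by norm_num) ((ZMod.natCast_eq_zero_iff 3 ℓ).mp h')
  omega

/-- Cayley-Hamilton for Frobenius, for an arbitrary Weierstrass curve over `ZMod ℓ`, `ℓ ≥ 5`. -/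
theorem nodeA_general (ℓ : ℕ) [Fact ℓ.Prime] (hℓ : 5 ≤ ℓ) (V : WeierstrassCurve (ZMod ℓ))
    (hΔ : V.Δ ≠ 0) (K : Type*) [Field K] [Algebra (ZMod ℓ) K] [DecidableEq K]
    (P : (V.toAffine⁄K).Point) :
    frobPt V K (frobPt V K P) - V.traceOfFrobenius • frobPt V K P + (ℓ : ℤ) • P = 0 := by
  have h := Fermat.Agent.Lib.FrobCH.CH (two_ne_zero_zmod ℓ hℓ) (three_ne_zero_zmod ℓ hℓ) V hΔ P
  rw [ZMod.card] at h
  have ht : V.traceOfFrobenius = (ℓ : ℤ) + 1 - (Nat.card V.toAffine.Point : ℤ) := by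
    simp [WeierstrassCurve.traceOfFrobenius, WeierstrassCurve.card]
  rw [ht]
  exact h

theorem shortW_Δ {R : Type*} [CommRing R] (c4 c6 : R) :
    (shortW c4 c6).Δ = 2 ^ 6 * 3 ^ 9 * (c4 ^ 3 - c6 ^ 2) := by
  simp only [shortW, WeierstrassCurve.Δ, WeierstrassCurve.b₂, WeierstrassCurve.b₄,
    WeierstrassCurve.b₆, WeierstrassCurve.b₈]
  ring

theorem nodeA' (ℓ : ℕ) [Fact ℓ.Prime] (hℓ : 5 ≤ ℓ) (c4 c6 : ZMod ℓ) (hΔ : c4 ^ 3 - c6 ^ 2 ≠ 0)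
    (K : Type*) [Field K] [Algebra (ZMod ℓ) K] [DecidableEq K]
    (P : ((shortW c4 c6).toAffine⁄K).Point) :
    frobPt (shortW c4 c6) K (frobPt (shortW c4 c6) K P)
      - (shortW c4 c6).traceOfFrobenius • frobPt (shortW c4 c6) K P + (ℓ : ℤ) • P = 0 := by
  apply nodeA_general ℓ hℓ
  rw [shortW_Δ]
  exact mul_ne_zero (mul_ne_zero (pow_ne_zero _ (two_ne_zero_zmod ℓ hℓ))
    (pow_ne_zero _ (three_ne_zero_zmod ℓ hℓ))) hΔ

theorem nodeA (ℓ : ℕ) [Fact ℓ.Prime] (hℓ : 5 ≤ ℓ) (c4 c6 : ZMod ℓ) (hΔ : c4 ^ 3 - c6 ^ 2 ≠ 0)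
    (K : Type) [Field K] [Algebra (ZMod ℓ) K] [DecidableEq K]
    (P : ((shortW c4 c6).toAffine⁄K).Point) :
    (2 : ℤ) • (frobPt (shortW c4 c6) K (frobPt (shortW c4 c6) K P)
      - (shortW c4 c6).traceOfFrobenius • frobPt (shortW c4 c6) K P + (ℓ : ℤ) • P) = 0 := by
  rw [nodeA' ℓ hℓ c4 c6 hΔ K P, smul_zero]

end Fermat.Agent.S52
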